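import Mathlib

/-!
# A finitely generated module of maximal depth over a regular local ring is free

Helper library (seat helper9).  We prove an Auslander–Buchsbaum type statement in the form
needed for the patching argument: if the residue field of a Noetherian local ring `A` has
projective dimension `≤ n`, and `N` is a nontrivial finitely generated `A`-module with a weakly
regular sequence of length `n` in the maximal ideal whose quotient has finite length, then
`N` is free.
-/

set_option autoImplicit false

namespace Fermat.Agent.Lib.Helper9

open CategoryTheory IsLocalRing RingTheory.Sequence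

variable {A : Type} [CommRing A] [IsLocalRing A] [IsNoetherianRing A]

/-- Modules of finite length have projective dimension at most that of the residue field. -/
theorem hasProjectiveDimensionLE_of_isFiniteLength (n : ℕ)
    (hk : HasProjectiveDimensionLE (ModuleCat.of A (A ⧸ maximalIdeal A)) n)
    (L : Type) [AddCommGroup L] [Module A L] (hL : IsFiniteLength A L) :
    HasProjectiveDimensionLE (ModuleCat.of A L) n := by
  induction hL with
  | @of_subsingleton M _ _ _ =>
    have hz : Limits.IsZero (ModuleCat.of A M) := ModuleCat.isZero_of_subsingleton _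
    have := hz.hasProjectiveDimensionLT_zero
    exact hasProjectiveDimensionLT_of_ge (ModuleCat.of A M) 0 (n + 1) (Nat.zero_le _)
  | @of_simple_quotient M _ _ N hsimple _ ih =>
    obtain ⟨I, hI, ⟨e⟩⟩ := isSimpleModule_iff_quot_maximal.mp hsimple
    have hIm : I = maximalIdeal A := IsLocalRing.eq_maximalIdeal hI
    subst hIm
    have hQ : HasProjectiveDimensionLE (ModuleCat.of A (M ⧸ N)) n :=
      ModuleCat.hasProjectiveDimensionLE_of_linearEquiv
        (M := ModuleCat.of A (A ⧸ maximalIdeal A)) (N := ModuleCat.of A (M ⧸ N)) e.symm n
    let S : ShortComplex (ModuleCat.{0} A) := (N.mkQ).shortComplexKer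
    have hS : S.ShortExact := LinearMap.shortExact_shortComplexKer N.mkQ_surjective
    have h1 : HasProjectiveDimensionLE S.X₁ n := by
      have e1 : N ≃ₗ[A] LinearMap.ker N.mkQ := LinearEquiv.ofEq _ _ N.ker_mkQ.symm
      exact ModuleCat.hasProjectiveDimensionLE_of_linearEquiv
        (M := ModuleCat.of A N) (N := ModuleCat.of A (LinearMap.ker N.mkQ)) e1 n
    have h3 : HasProjectiveDimensionLE S.X₃ n := hQ
    exact hS.hasProjectiveDimensionLT_X₂ (n + 1) h1 h3

/-- A nontrivial finitely generated module over a Noetherian local ring `A` whose residue field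
has projective dimension `≤ n`, admitting a weakly regular sequence of length `n` in the maximal
ideal with quotient of finite length, is free. -/
theorem free_of_isWeaklyRegular_of_isFiniteLength (n : ℕ)
    (hk : HasProjectiveDimensionLE (ModuleCat.of A (A ⧸ maximalIdeal A)) n)
    (N : Type) [AddCommGroup N] [Module A N] [Module.Finite A N] [Nontrivial N]
    (rs : List A) (hlen : rs.length = n) (hmem : ∀ x ∈ rs, x ∈ maximalIdeal A)
    (hreg : IsWeaklyRegular N rs)
    (hfl : IsFiniteLength A (N ⧸ Ideal.ofList rs • (⊤ : Submodule A N))) :
    Module.Free A N := by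
  have h1 := ModuleCat.projectiveDimension_quotient_eq_add_length_of_isWeaklyRegular
    (ModuleCat.of A N) rs hreg hmem
  have h2 : HasProjectiveDimensionLE
      (ModuleCat.of A (N ⧸ Ideal.ofList rs • (⊤ : Submodule A N))) n :=
    hasProjectiveDimensionLE_of_isFiniteLength n hk _ hfl
  rw [← projectiveDimension_le_iff] at h2
  change projectiveDimension (ModuleCat.of A (N ⧸ Ideal.ofList rs • (⊤ : Submodule A N))) ≤ _
    at h2
  rw [h1, hlen] at h2
  have h3 : projectiveDimension (ModuleCat.of A N) ≤ ((0 : ℕ) : WithBot ℕ∞) := by
    have h4 : projectiveDimension (ModuleCat.of A N) + (n : WithBot ℕ∞) ≤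
        ((0 : ℕ) : WithBot ℕ∞) + (n : WithBot ℕ∞) := by
      rw [Nat.cast_zero, zero_add]; exact h2
    exact ENat.WithBot.add_le_add_natCast_right_iff.mp h4
  rw [projectiveDimension_le_iff, ← projective_iff_hasProjectiveDimensionLE_zero,
    ← IsProjective.iff_projective] at h3
  exact Module.free_of_flat_of_isLocalRing

end Fermat.Agent.Lib.Helper9
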