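import Mathlib

/-!
# The variables form a regular sequence in a multivariate power series ring

Helper library (seat helper9).  For a commutative ring `S` and a list `l` of distinct
variables, `l.map X` is a weakly regular sequence of `MvPowerSeries σ S`.  For `σ = Fin r`
the ideal generated by all the variables is the kernel of the constant coefficient map.
-/

set_option autoImplicit false

namespace Fermat.Agent.Lib.Helper9

open MvPowerSeries RingTheory.Sequence

section General

variable {σ : Type*} {S : Type*} [CommRing S]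

/-- The ideal of power series all of whose monomials involve one of the variables of `l`. -/
def varsIdeal (l : List σ) : Ideal (MvPowerSeries σ S) where
  carrier := {f | ∀ μ : σ →₀ ℕ, (∀ t ∈ l, μ t = 0) → coeff μ f = 0}
  add_mem' := by
    intro f g hf hg μ hμ
    rw [map_add, hf μ hμ, hg μ hμ, add_zero]
  zero_mem' := by
    intro μ _
    exact coeff_zero μ
  smul_mem' := by
    classical
    intro a f hf μ hμ
    rw [smul_eq_mul, coeff_mul]
    refine Finset.sum_eq_zero ?_
    rintro ⟨p, q⟩ hpq
    rw [Finset.HasAntidiagonal.mem_antidiagonal] at hpq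
    simp only at hpq ⊢
    have hq : ∀ t ∈ l, q t = 0 := by
      intro t ht
      have h1 := hμ t ht
      rw [← hpq, Finsupp.add_apply] at h1
      omega
    rw [hf q hq, mul_zero]

theorem mem_varsIdeal_iff (l : List σ) (f : MvPowerSeries σ S) :
    f ∈ varsIdeal l ↔ ∀ μ : σ →₀ ℕ, (∀ t ∈ l, μ t = 0) → coeff μ f = 0 :=
  Iff.rfl

theorem X_mem_varsIdeal {l : List σ} {t : σ} (ht : t ∈ l) :
    (X t : MvPowerSeries σ S) ∈ varsIdeal l := by
  classical
  intro μ hμ
  rw [coeff_X, if_neg]
  rintro rfl
  have := hμ t ht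
  simp at this

theorem ofList_map_X_le_varsIdeal (l : List σ) :
    Ideal.ofList (l.map (X : σ → MvPowerSeries σ S)) ≤ varsIdeal l := by
  refine Ideal.span_le.mpr ?_
  intro f hf
  obtain ⟨t, ht, rfl⟩ := List.mem_map.mp hf
  exact X_mem_varsIdeal ht

/-- Every power series differs from its part not involving `t` by a multiple of `X t`. -/
theorem exists_eq_X_mul_add (t : σ) (f : MvPowerSeries σ S) :
    ∃ g h : MvPowerSeries σ S, f = X t * g + h ∧
      ∀ μ : σ →₀ ℕ, coeff μ h = if μ t = 0 then coeff μ f else 0 := by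
  classical
  let h : MvPowerSeries σ S := fun μ => if μ t = 0 then coeff μ f else 0
  have hh : ∀ μ : σ →₀ ℕ, coeff μ h = if μ t = 0 then coeff μ f else 0 := fun μ => rfl
  have hdvd : (X t : MvPowerSeries σ S) ∣ f - h := by
    rw [X_dvd_iff]
    intro μ hμ
    rw [map_sub, hh, if_pos hμ, sub_self]
  obtain ⟨g, hg⟩ := hdvd
  exact ⟨g, h, by rw [← hg]; ring, hh⟩

theorem varsIdeal_le_ofList_map_X (l : List σ) :
    varsIdeal l ≤ Ideal.ofList (l.map (X : σ → MvPowerSeries σ S)) := by
  induction l with
  | nil =>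
    intro f hf
    have : f = 0 := by
      ext μ
      rw [hf μ (fun t ht => absurd ht List.not_mem_nil), coeff_zero]
    rw [this]
    exact Ideal.zero_mem _
  | cons t l ih =>
    intro f hf
    obtain ⟨g, h, hfgh, hh⟩ := exists_eq_X_mul_add t f
    have hmem : h ∈ varsIdeal (S := S) l := by
      intro μ hμ
      rw [hh]
      split_ifs with h0
      · refine hf μ ?_
        intro t' ht'
        rcases List.mem_cons.mp ht' with rfl | ht'
        · exact h0
        · exact hμ t' ht'
      · rfl
    rw [List.map_cons, Ideal.ofList_cons, hfgh]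
    refine Ideal.add_mem _ ?_ ?_
    · exact Ideal.mem_sup_left (Ideal.mul_mem_right _ _ (Ideal.subset_span rfl))
    · exact Ideal.mem_sup_right (ih hmem)

theorem ofList_map_X_eq_varsIdeal (l : List σ) :
    Ideal.ofList (l.map (X : σ → MvPowerSeries σ S)) = varsIdeal l :=
  le_antisymm (ofList_map_X_le_varsIdeal l) (varsIdeal_le_ofList_map_X l)

theorem mem_varsIdeal_of_X_mul_mem {l : List σ} {s : σ} (hs : s ∉ l)
    {f : MvPowerSeries σ S} (hf : X s * f ∈ varsIdeal l) : f ∈ varsIdeal l := by
  classical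
  intro μ hμ
  have h1 : coeff (Finsupp.single s 1 + μ) (X s * f) = 0 := by
    refine hf _ ?_
    intro t ht
    have hts : s ≠ t := fun h => hs (h ▸ ht)
    rw [Finsupp.add_apply, Finsupp.single_eq_of_ne' hts, hμ t ht]
  rw [X_def, coeff_add_monomial_mul, one_mul] at h1
  exact h1

theorem isWeaklyRegular_map_X (l : List σ) (hl : l.Nodup) :
    IsWeaklyRegular (MvPowerSeries σ S) (l.map (X : σ → MvPowerSeries σ S)) := by
  induction l using List.reverseRecOn with
  | nil => exact IsWeaklyRegular.nil _ _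
  | append_singleton l s ih =>
    have hl' : l.Nodup ∧ s ∉ l := by
      have := List.nodup_append.mp hl
      refine ⟨this.1, fun hs => ?_⟩
      exact this.2.2 s hs s (List.mem_singleton_self s) rfl
    rw [List.map_append, List.map_singleton, isWeaklyRegular_append_iff]
    refine ⟨ih hl'.1, (isWeaklyRegular_singleton_iff _ _).mpr ?_⟩
    rw [isSMulRegular_quotient_iff_mem_of_smul_mem]
    intro f hf
    have htop : ∀ I : Ideal (MvPowerSeries σ S),
        (I • (⊤ : Submodule (MvPowerSeries σ S) (MvPowerSeries σ S))) = I := fun I => by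
      rw [smul_eq_mul, Ideal.mul_top]
    rw [htop, ofList_map_X_eq_varsIdeal] at hf ⊢
    exact mem_varsIdeal_of_X_mul_mem hl'.2 hf

end General

section Fin

variable {S : Type*} [CommRing S] (r : ℕ)

theorem mem_varsIdeal_finRange_iff (f : MvPowerSeries (Fin r) S) :
    f ∈ varsIdeal (S := S) (List.finRange r) ↔ constantCoeff f = 0 := by
  rw [mem_varsIdeal_iff, ← coeff_zero_eq_constantCoeff_apply]
  constructor
  · intro h
    exact h 0 (fun t _ => rfl)
  · intro h μ hμ
    have : μ = 0 := by
      ext t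
      exact hμ t (List.mem_finRange t)
    rw [this, h]

/-- The standard sequence `X 0, …, X (r-1), C ϖ` of `S⟦X 0, …, X (r-1)⟧`. -/
noncomputable def stdSeq (ϖ : S) : List (MvPowerSeries (Fin r) S) :=
  (List.finRange r).map (X : Fin r → MvPowerSeries (Fin r) S) ++ [C ϖ]

theorem length_stdSeq (ϖ : S) : (stdSeq r ϖ).length = r + 1 := by
  simp [stdSeq]

theorem mem_stdSeq_iff (ϖ : S) (f : MvPowerSeries (Fin r) S) :
    f ∈ stdSeq r ϖ ↔ (∃ i : Fin r, f = X i) ∨ f = C ϖ := by
  simp only [stdSeq, List.mem_append, List.mem_map, List.mem_finRange, true_and,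
    List.mem_singleton]
  constructor
  · rintro (⟨i, rfl⟩ | h)
    · exact Or.inl ⟨i, rfl⟩
    · exact Or.inr h
  · rintro (⟨i, rfl⟩ | h)
    · exact Or.inl ⟨i, rfl⟩
    · exact Or.inr h

theorem isWeaklyRegular_stdSeq [IsDomain S] {ϖ : S} (hϖ : ϖ ≠ 0) :
    IsWeaklyRegular (MvPowerSeries (Fin r) S) (stdSeq r ϖ) := by
  rw [stdSeq, isWeaklyRegular_append_iff]
  refine ⟨isWeaklyRegular_map_X _ (List.nodup_finRange r),
    (isWeaklyRegular_singleton_iff _ _).mpr ?_⟩
  rw [isSMulRegular_quotient_iff_mem_of_smul_mem]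
  intro f hf
  have htop : ∀ I : Ideal (MvPowerSeries (Fin r) S),
      (I • (⊤ : Submodule (MvPowerSeries (Fin r) S) (MvPowerSeries (Fin r) S))) = I := fun I => by
    rw [smul_eq_mul, Ideal.mul_top]
  rw [htop, ofList_map_X_eq_varsIdeal, mem_varsIdeal_finRange_iff] at hf ⊢
  rw [smul_eq_mul, map_mul, constantCoeff_C] at hf
  exact (mul_eq_zero.mp hf).resolve_left hϖ

theorem ofList_stdSeq_eq_maximalIdeal [IsDomain S] [IsDiscreteValuationRing S] {ϖ : S}
    (hϖ : Irreducible ϖ) :
    Ideal.ofList (stdSeq r ϖ) = IsLocalRing.maximalIdeal (MvPowerSeries (Fin r) S) := by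
  rw [stdSeq, Ideal.ofList_append, ofList_map_X_eq_varsIdeal, Ideal.ofList_singleton]
  apply le_antisymm
  · refine sup_le ?_ ?_
    · intro f hf
      rw [mem_varsIdeal_finRange_iff] at hf
      rw [IsLocalRing.mem_maximalIdeal, mem_nonunits_iff, isUnit_iff_constantCoeff, hf]
      exact not_isUnit_zero
    · rw [Ideal.span_le, Set.singleton_subset_iff, SetLike.mem_coe,
        IsLocalRing.mem_maximalIdeal, mem_nonunits_iff, isUnit_iff_constantCoeff, constantCoeff_C]
      exact hϖ.not_isUnit
  · intro f hf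
    rw [IsLocalRing.mem_maximalIdeal, mem_nonunits_iff, isUnit_iff_constantCoeff,
      ← mem_nonunits_iff, ← IsLocalRing.mem_maximalIdeal, hϖ.maximalIdeal_eq,
      Ideal.mem_span_singleton] at hf
    obtain ⟨a, ha⟩ := hf
    have hdecomp : f = (f - C (constantCoeff f)) + C ϖ * C a := by
      rw [ha, map_mul]; ring
    rw [hdecomp]
    refine Ideal.add_mem _ (Ideal.mem_sup_left ?_) (Ideal.mem_sup_right ?_)
    · rw [mem_varsIdeal_finRange_iff, map_sub, constantCoeff_C, sub_self]
    · exact Ideal.mul_mem_right _ _ (Ideal.subset_span rfl)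

end Fin

end Fermat.Agent.Lib.Helper9
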