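import Mathlib
import Fermat.Agent.Lib.Helper9.PowerSeriesRegular
import Fermat.Agent.Lib.Helper9.FreeOfDepth

/-!
# Modules over a power series ring over a DVR

Helper library (seat helper9).
-/

set_option autoImplicit false

namespace Fermat.Agent.Lib.Helper9

open CategoryTheory IsLocalRing RingTheory.Sequence MvPowerSeries

section ResidueField

variable {𝒪 : Type} [CommRing 𝒪] [IsDomain 𝒪] [IsDiscreteValuationRing 𝒪] (r : ℕ)

/-- The residue field of `𝒪⟦X₁, …, X_r⟧` has projective dimension at most `r + 1`. -/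
theorem hasProjectiveDimensionLE_residue_mvPowerSeries :
    HasProjectiveDimensionLE
      (ModuleCat.of (MvPowerSeries (Fin r) 𝒪)
        (MvPowerSeries (Fin r) 𝒪 ⧸ maximalIdeal (MvPowerSeries (Fin r) 𝒪))) (r + 1) := by
  obtain ⟨ϖ, hϖ⟩ := IsDiscreteValuationRing.exists_irreducible 𝒪
  have hmax := ofList_stdSeq_eq_maximalIdeal r hϖ
  have hmem : ∀ x ∈ stdSeq r ϖ, x ∈ maximalIdeal (MvPowerSeries (Fin r) 𝒪) := by
    intro x hx
    rw [← hmax]
    exact Ideal.subset_span hx
  have hreg : IsRegular (MvPowerSeries (Fin r) 𝒪) (stdSeq r ϖ) :=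
    IsRegular.of_isWeaklyRegular_of_mem_maximalIdeal _ hmem
      (isWeaklyRegular_stdSeq r hϖ.ne_zero)
  have h1 := ModuleCat.projectiveDimension_quotient_eq_length.{0} (stdSeq r ϖ) hreg
  rw [length_stdSeq] at h1
  have e : Shrink.{0} (MvPowerSeries (Fin r) 𝒪 ⧸ Ideal.ofList (stdSeq r ϖ)) ≃ₗ[MvPowerSeries (Fin r) 𝒪]
      (MvPowerSeries (Fin r) 𝒪 ⧸ maximalIdeal (MvPowerSeries (Fin r) 𝒪)) :=
    (Shrink.linearEquiv _ _).trans (Submodule.quotEquivOfEq _ _ hmax)
  have h2 := ModuleCat.projectiveDimension_eq_of_linearEquiv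
    (M := ModuleCat.of (MvPowerSeries (Fin r) 𝒪)
      (Shrink.{0} (MvPowerSeries (Fin r) 𝒪 ⧸ Ideal.ofList (stdSeq r ϖ))))
    (N := ModuleCat.of (MvPowerSeries (Fin r) 𝒪)
      (MvPowerSeries (Fin r) 𝒪 ⧸ maximalIdeal (MvPowerSeries (Fin r) 𝒪))) e
  rw [← projectiveDimension_le_iff, ← h2, h1]

end ResidueField

section Pushforward

variable {B A : Type} [CommRing B] [CommRing A] [IsLocalRing A] [IsNoetherianRing A]
  [Algebra B A] {N : Type} [AddCommGroup N] [Module A N] [Module B N] [IsScalarTower B A N]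

/-- The quotient of `N` by the image of a maximal ideal `𝔪` of `B` is Artinian over `A`,
when `N` is finite over `B`. -/
theorem isArtinian_quotient_map_smul_top [Module.Finite B N] (𝔪 : Ideal B) [h𝔪 : 𝔪.IsMaximal] :
    IsArtinian A (N ⧸ (𝔪.map (algebraMap B A)) • (⊤ : Submodule A N)) := by
  have htors : Module.IsTorsionBySet B
      (N ⧸ (𝔪.map (algebraMap B A)) • (⊤ : Submodule A N)) 𝔪 := by
    intro x a
    obtain ⟨y, rfl⟩ := Submodule.Quotient.mk_surjective _ x
    rw [← Submodule.Quotient.mk_smul, Submodule.Quotient.mk_eq_zero, ← algebraMap_smul A (a : B) y]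
    exact Submodule.smul_mem_smul (Ideal.mem_map_of_mem _ a.2) Submodule.mem_top
  letI : Field (B ⧸ 𝔪) := Ideal.Quotient.field 𝔪
  letI : Module (B ⧸ 𝔪) (N ⧸ (𝔪.map (algebraMap B A)) • (⊤ : Submodule A N)) := htors.module
  have hst : IsScalarTower B (B ⧸ 𝔪) (N ⧸ (𝔪.map (algebraMap B A)) • (⊤ : Submodule A N)) :=
    htors.isScalarTower
  have hfinB : Module.Finite B (N ⧸ (𝔪.map (algebraMap B A)) • (⊤ : Submodule A N)) :=
    Module.Finite.of_surjective
      (((𝔪.map (algebraMap B A)) • (⊤ : Submodule A N)).mkQ.restrictScalars B)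
      (Submodule.mkQ_surjective _)
  have hfin : Module.Finite (B ⧸ 𝔪) (N ⧸ (𝔪.map (algebraMap B A)) • (⊤ : Submodule A N)) :=
    Module.Finite.of_restrictScalars_finite B (B ⧸ 𝔪) _
  have hart : IsArtinian (B ⧸ 𝔪) (N ⧸ (𝔪.map (algebraMap B A)) • (⊤ : Submodule A N)) :=
    inferInstance
  have hartB : IsArtinian B (N ⧸ (𝔪.map (algebraMap B A)) • (⊤ : Submodule A N)) :=
    isArtinian_of_surjective_algebraMap (S := B) (R := B ⧸ 𝔪) Ideal.Quotient.mk_surjective
  exact isArtinian_of_tower B hartB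

/-- Let `B → A` be a ring homomorphism to a Noetherian local ring whose residue field has
projective dimension `≤ n`, and `N` an `A`-module which is nontrivial and finite free over `B`.
If `B` carries a weakly regular sequence of length `n` generating a maximal ideal and mapping
into the maximal ideal of `A`, then `N` is free over `A`. -/
theorem free_of_free_of_isWeaklyRegular [Module.Free B N] [Module.Finite B N] [Nontrivial N]
    (n : ℕ) (hk : HasProjectiveDimensionLE (ModuleCat.of A (A ⧸ maximalIdeal A)) n)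
    (rs : List B) (hlen : rs.length = n) (hreg : IsWeaklyRegular B rs)
    (hmem : ∀ x ∈ rs, algebraMap B A x ∈ maximalIdeal A)
    (hmax : (Ideal.ofList rs).IsMaximal) :
    Module.Free A N := by
  have : Module.Finite A N := Module.Finite.of_restrictScalars_finite B A N
  have hregN : IsWeaklyRegular N (rs.map (algebraMap B A)) := by
    rw [isWeaklyRegular_map_algebraMap_iff]
    have h1 : IsWeaklyRegular (TensorProduct B N B) rs := hreg.isWeaklyRegular_lTensor
    exact ((TensorProduct.rid B N).isWeaklyRegular_congr rs).mp h1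
  have hfl : IsFiniteLength A (N ⧸ Ideal.ofList (rs.map (algebraMap B A)) •
      (⊤ : Submodule A N)) := by
    rw [isFiniteLength_iff_isNoetherian_isArtinian]
    refine ⟨inferInstance, ?_⟩
    rw [← Ideal.map_ofList]
    exact isArtinian_quotient_map_smul_top (Ideal.ofList rs)
  refine free_of_isWeaklyRegular_of_isFiniteLength n hk N (rs.map (algebraMap B A))
    (by rw [List.length_map, hlen]) ?_ hregN hfl
  intro x hx
  obtain ⟨y, hy, rfl⟩ := List.mem_map.mp hx
  exact hmem y hy

end Pushforward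

end Fermat.Agent.Lib.Helper9
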